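import Mathlib
import Fermat.Agent.S30.PseudoChar

/-!
# STB-F (S35, phase 2 of item 34), abstract part (helper76)

`J` a `G_ℚ × Hecke`-module with the `p`-adic Eichler–Shimura data (`ESDataInf`, `ESFaith`),
`t : G_ℚ → 𝒪'` the trace function of `S30.exists_traceFun` (characterised by its spec).

`s35f_trace_sq` : let `σ` be a Frobenius element at `q ≠ p` and `P` a Hecke polynomial in the
variables outside `S` with `χ(P) ≠ 0` such that `(σ⁴ − (q² + 1) σ² + q²) (P x) = 0` for all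
`p`-power torsion `x` (this is (P7-a) on the `q`-new part, which contains `P · J[p^∞]`).
Then `t(σ)² = (q + 1)²`.

`s35f_trace_eq_or` : hence `t σ = q + 1 ∨ t σ = −(q + 1)` (`𝒪'` a domain).
-/

set_option autoImplicit false

noncomputable section

namespace Fermat.Agent.S35

open ModularCurve Fermat.Agent.ES Fermat.Agent.S31 Fermat.Agent.S30

section Finite

variable {p : ℕ} [Fact p.Prime] {J : Type} [AddCommGroup J] [Module HeckeAlg J]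
  [DistribMulAction GQ J]

/-- **finite level.**  If `h` represents `σ + q σ⁻¹` on `J[pⁿ]` and `y ∈ J[pⁿ]` satisfies
`σ⁴ y + q² y = (q² + 1) σ² y`, then `(h² − (q + 1)²) y = 0`. -/
theorem s35f_kills {n : ℕ} {σ : GQ} {h : HeckeAlg} (H : Approx p J n σ h) {q : ℕ}
    (he : cycE p n σ ≡ q [MOD p ^ n]) {y : J} (hy : p ^ n • y = 0)
    (hnew : σ • σ • σ • σ • y + q ^ 2 • y = (q ^ 2 + 1) • (σ • σ • y)) :
    (h * h - (((q + 1) ^ 2 : ℕ) : HeckeAlg)) • y = 0 := by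
  -- `h y = σ y + q σ⁻¹ y`
  have h1 : h • y = σ • y + q • (σ⁻¹ • y) := by
    rw [← H y hy, nsmul_eq_of_modEq he (torsion_smul n σ⁻¹ hy)]
  have hhy : p ^ n • (h • y) = 0 := torsion_hecke n h hy
  have h2 : h • (h • y) = σ • (h • y) + q • (σ⁻¹ • (h • y)) := by
    rw [← H (h • y) hhy, nsmul_eq_of_modEq he (torsion_smul n σ⁻¹ hhy)]
  -- apply `σ⁻²` to `hnew`
  have a1 : σ⁻¹ • σ⁻¹ • (σ • σ • σ • σ • y) = σ • σ • y := by
    rw [inv_smul_smul, inv_smul_smul]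
  have a2 : σ⁻¹ • σ⁻¹ • (q ^ 2 • y) = q ^ 2 • (σ⁻¹ • σ⁻¹ • y) := by
    rw [smul_comm σ⁻¹ (q ^ 2) y, smul_comm σ⁻¹ (q ^ 2) (σ⁻¹ • y)]
  have a3 : σ⁻¹ • σ⁻¹ • ((q ^ 2 + 1) • (σ • σ • y)) = (q ^ 2 + 1) • y := by
    rw [smul_comm σ⁻¹ (q ^ 2 + 1) (σ • σ • y), smul_comm σ⁻¹ (q ^ 2 + 1) (σ⁻¹ • σ • σ • y),
      inv_smul_smul, inv_smul_smul]
  have h3 : σ • σ • y + q ^ 2 • (σ⁻¹ • σ⁻¹ • y) = (q ^ 2 + 1) • y := by
    rw [← a1, ← a2, ← a3, ← smul_add, ← smul_add, hnew]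
  -- expand `h (h y)`
  have b1 : σ • (σ • y + q • (σ⁻¹ • y)) = σ • σ • y + q • y := by
    rw [smul_add, smul_comm σ q (σ⁻¹ • y), smul_inv_smul]
  have b2 : σ⁻¹ • (σ • y + q • (σ⁻¹ • y)) = y + q • (σ⁻¹ • σ⁻¹ • y) := by
    rw [smul_add, inv_smul_smul, smul_comm σ⁻¹ q (σ⁻¹ • y)]
  have h4 : σ • σ • y = (q ^ 2 + 1) • y - q ^ 2 • (σ⁻¹ • σ⁻¹ • y) := by
    rw [← h3]; abel
  rw [sub_smul, mul_smul, Nat.cast_smul_eq_nsmul, h2, h1, b1, b2, h4]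
  generalize σ⁻¹ • σ⁻¹ • y = z
  module

end Finite

section Limit

variable {p : ℕ} [Fact p.Prime] {N : ℕ} [NeZero N] {J : Type} [AddCommGroup J]
  [Module HeckeAlg J] [DistribMulAction GQ J] {S : Finset ℕ} {𝒪' : Type*} [CommRing 𝒪']
  {χ : CuspForm.heckeAlgebra N 2 (↑S : Set ℕ) →+* 𝒪'}

/-- **(P7) from (P7-a) + (P7-b), abstract form**: `t(σ)² = (q + 1)²`. -/
theorem s35f_trace_sq [IsDomain 𝒪'] (I : Ideal 𝒪') [IsAdicComplete I 𝒪'] (hpI : (p : 𝒪') ∈ I)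
    (hcheb : Cheb.WeakChebotarev) (hJ : ESDataInf N p J) (hfaith : ESFaith N p J)
    (hgoodN : ∀ r : ℕ, r.Prime → r ∉ S → ¬ r ∣ N)
    (hgood : ∀ r : ℕ, r.Prime → r ∉ S → ¬ r ∣ N * p)
    (t : GQ → 𝒪')
    (ht : ∀ (g : GQ) (k n : ℕ) (h : HeckeAlg), Good p J S χ k n →
      h ∈ MvPolynomial.supported ℤ (outsideVars (↑S : Set ℕ)) → Approx p J n g h →
        t g - chiHom S χ h ∈ I ^ k)
    {q : ℕ} (hq : q.Prime) (hqp : q ≠ p)
    (A : ValuationSubring (AlgebraicClosure ℚ)) (hA : A.LiesOverPrime q)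
    (σ : GQ) (hσ : A.IsFrobeniusAt σ q)
    (P : HeckeAlg) (hP : P ∈ MvPolynomial.supported ℤ (outsideVars (↑S : Set ℕ)))
    (hχP : chiHom S χ P ≠ 0)
    (hnew : ∀ x : J, IsPPowerTorsion p x →
      σ • σ • σ • σ • (P • x) + q ^ 2 • (P • x) = (q ^ 2 + 1) • (σ • σ • (P • x))) :
    t σ * t σ = ((q : 𝒪') + 1) ^ 2 := by
  have key : ∀ k : ℕ, t σ * t σ * chiHom S χ P - ((q : 𝒪') + 1) ^ 2 * chiHom S χ P ∈ I ^ k := by
    intro k
    obtain ⟨n, -, hG⟩ := exists_good (J := J) S χ hfaith hgoodN hgood k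
    obtain ⟨h, hh, H⟩ := exists_approx hcheb hJ S hgood n σ
    have he : cycE p n σ ≡ q [MOD p ^ n] := by
      rw [cycE_modEq_iff, padicCyclo_frob p q hq hqp A hA σ hσ, map_natCast]
    have hsupp : (h * h - (((q + 1) ^ 2 : ℕ) : HeckeAlg)) * P
        ∈ MvPolynomial.supported ℤ (outsideVars (↑S : Set ℕ)) :=
      mul_mem (sub_mem (mul_mem hh hh) (natCast_mem _ _)) hP
    have hkill : ∀ x : J, p ^ n • x = 0 →
        ((h * h - (((q + 1) ^ 2 : ℕ) : HeckeAlg)) * P) • x = 0 := by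
      intro x hx
      rw [mul_smul]
      exact s35f_kills H he (torsion_hecke n P hx) (hnew x ⟨n, hx⟩)
    have h1 := span_pow_le I hpI k (hG _ hsupp hkill)
    rw [map_mul, map_sub, map_mul, map_natCast] at h1
    have h2 := ht σ k n h hG hh H
    have e : t σ * t σ * chiHom S χ P - ((q : 𝒪') + 1) ^ 2 * chiHom S χ P
        = (t σ - chiHom S χ h) * ((t σ + chiHom S χ h) * chiHom S χ P)
          + (chiHom S χ h * chiHom S χ h - (((q + 1) ^ 2 : ℕ) : 𝒪')) * chiHom S χ P := by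
      push_cast
      ring
    rw [e]
    exact add_mem (Ideal.mul_mem_right _ _ h2) h1
  have h0 := eq_of_forall_sub_mem I key
  exact mul_right_cancel₀ hχP h0

/-- **(P7), abstract form**: `t σ = q + 1 ∨ t σ = −(q + 1)`. -/
theorem s35f_trace_eq_or [IsDomain 𝒪'] (I : Ideal 𝒪') [IsAdicComplete I 𝒪'] (hpI : (p : 𝒪') ∈ I)
    (hcheb : Cheb.WeakChebotarev) (hJ : ESDataInf N p J) (hfaith : ESFaith N p J)
    (hgoodN : ∀ r : ℕ, r.Prime → r ∉ S → ¬ r ∣ N)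
    (hgood : ∀ r : ℕ, r.Prime → r ∉ S → ¬ r ∣ N * p)
    (t : GQ → 𝒪')
    (ht : ∀ (g : GQ) (k n : ℕ) (h : HeckeAlg), Good p J S χ k n →
      h ∈ MvPolynomial.supported ℤ (outsideVars (↑S : Set ℕ)) → Approx p J n g h →
        t g - chiHom S χ h ∈ I ^ k)
    {q : ℕ} (hq : q.Prime) (hqp : q ≠ p)
    (A : ValuationSubring (AlgebraicClosure ℚ)) (hA : A.LiesOverPrime q)
    (σ : GQ) (hσ : A.IsFrobeniusAt σ q)
    (P : HeckeAlg) (hP : P ∈ MvPolynomial.supported ℤ (outsideVars (↑S : Set ℕ)))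
    (hχP : chiHom S χ P ≠ 0)
    (hnew : ∀ x : J, IsPPowerTorsion p x →
      σ • σ • σ • σ • (P • x) + q ^ 2 • (P • x) = (q ^ 2 + 1) • (σ • σ • (P • x))) :
    t σ = (q : 𝒪') + 1 ∨ t σ = -((q : 𝒪') + 1) := by
  have h := s35f_trace_sq I hpI hcheb hJ hfaith hgoodN hgood t ht hq hqp A hA σ hσ P hP hχP hnew
  have h2 : (t σ - ((q : 𝒪') + 1)) * (t σ + ((q : 𝒪') + 1)) = 0 := by
    have : (t σ - ((q : 𝒪') + 1)) * (t σ + ((q : 𝒪') + 1))
        = t σ * t σ - ((q : 𝒪') + 1) ^ 2 := by ring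
    rw [this, h, sub_self]
  rcases mul_eq_zero.mp h2 with h3 | h3
  · left; exact sub_eq_zero.mp h3
  · right; exact eq_neg_of_add_eq_zero_left h3

end Limit

end Fermat.Agent.S35
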