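import Mathlib
import Fermat.Agent.S35.FinalAbs
import Fermat.Agent.ES.TopFaith
import Fermat.Agent.STB.Stmt

/-!
# STB-F (S35, phase 2 of item 34), the `q`-new part of `PDiv (M₁ q) p` (helper76)

`J := PDiv (M₁ * q) p`, the `p`-divisible torsion of `J₀(M₁ q)(ℚ̄)` with the Hecke module structure
`pDivModule` and the Galois action `pDivGalois`.

* `StmtNewMem` : (P2) + (P3) in the form of `STB.stb_p3_new` (helper92, helper59): if a Hecke
  polynomial `P` in good variables kills the cusp forms of level `M₁` then `P x` is `q`-new.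
* `s35f_hnew` : hence `(σ⁴ − (q² + 1) σ² + q²)(P x) = 0` (from (P7-a) = `StmtNewFrobJ`).
-/

set_option autoImplicit false

noncomputable section

namespace Fermat.Agent.S35

open ModularCurve Fermat.Agent.ES Fermat.Agent.S31 Fermat.Agent.S30 Fermat.Agent.STB

/-- **(P2) + (P3)** (= `STB.stb_p3_new`): a Hecke polynomial in the good variables of level
`M₁ q` which vanishes on `S₂(Γ₀(M₁))` maps `PDiv (M₁ q) p` into the `q`-new part. -/
def StmtNewMem : Prop :=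
  ∀ (M₁ q p : ℕ) [NeZero M₁] [NeZero q], p.Prime → q.Prime → ¬ q ∣ M₁ → ∀ t : HeckeAlg,
    t ∈ MvPolynomial.supported ℤ (goodPrimes (M₁ * q) p) → CuspForm.heckeEvalForms M₁ 2 t = 0 →
      ∀ x : PDiv (M₁ * q) p,
        (((letI := pDivModule (M₁ * q) p; t • x) : PDiv (M₁ * q) p) : JZero (M₁ * q)) ∈
          stbNew M₁ q

section New

variable {M₁ q : ℕ} [NeZero M₁] [NeZero q] {p : ℕ} [Fact p.Prime]

/-- **(P7-a) on `P · PDiv`**: `(σ⁴ − (q² + 1) σ² + q²)(P x) = 0`. -/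
theorem s35f_hnew (hNF : StmtNewFrobJ M₁ q p) (hNM : StmtNewMem) (hq : q.Prime)
    (hqM₁ : ¬ q ∣ M₁)
    (S : Finset ℕ) (hgood : ∀ r : ℕ, r.Prime → r ∉ S → ¬ r ∣ M₁ * q * p)
    (P : HeckeAlg) (hP : P ∈ MvPolynomial.supported ℤ (outsideVars (↑S : Set ℕ)))
    (hP0 : CuspForm.heckeEvalForms M₁ 2 P = 0)
    (A₀ : ValuationSubring (AlgebraicClosure ℚ)) (hA : A₀.LiesOverPrime q)
    (σ : GQ) (hσ : A₀.IsFrobeniusAt σ q) (x : PDiv (M₁ * q) p) :
    letI := pDivModule (M₁ * q) p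
    letI := pDivGalois (M₁ * q) p
    σ • σ • σ • σ • (P • x) + q ^ 2 • (P • x) = (q ^ 2 + 1) • (σ • σ • (P • x)) := by
  have hp : p.Prime := Fact.out
  have hsub : outsideVars (↑S : Set ℕ) ⊆ goodPrimes (M₁ * q) p :=
    fun ℓ hℓ => hgood (ℓ : ℕ) ℓ.2 hℓ
  have hPgood : P ∈ MvPolynomial.supported ℤ (goodPrimes (M₁ * q) p) :=
    MvPolynomial.supported_mono hsub hP
  have hnew := hNM M₁ q p hp hq hqM₁ P hPgood hP0 x
  have h := hNF A₀ hA σ hσ _ (isPPowerTorsion_coe _) hnew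
  apply Subtype.ext
  rw [AddSubgroup.coe_add, coe_nsmul_pDiv, coe_nsmul_pDiv]
  exact h

end New

end Fermat.Agent.S35
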