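/-
S35 glue (helper59): S35 from a pseudo-character.

`s35_of_pseudoChar`: if there is a function `t : G_ℚ → O'` which is a two-dimensional
pseudo-character with determinant `ε` (P1–P3), with `t(Frob_ℓ) = χ(T_ℓ)`, `ε(Frob_ℓ) = ℓ` at the
good primes outside `S` (P4), continuous (P6), with `t(σ) = ±(q + 1)`, `ε(σ) = q` for every
Frobenius element `σ` at a prime `q ≠ lam`, `q ∥ M` (P7), and if `c² = 1`, `ε(c) = -1`, then the
conclusion of S35 holds, with `O'' = O'`.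
(Wiles' lemma + stable lattice: `Fermat/Agent/ES/Wiles*.lean`.)
-/
import Fermat.Statements.S35
import Fermat.Agent.S30.OfPseudoChar

set_option autoImplicit false

open Polynomial

namespace Fermat.Agent.S35

open Fermat.Agent.S53 (Gal M2 MatCont ofMatrix)

/-- The conclusion of S35 for `χ` (`χ = iota.comp chig.rangeRestrict` in S35). -/
def S35Concl (lam M : ℕ) [NeZero M] (S : Finset ℕ) (O' : Type) [CommRing O']
    (χ : CuspForm.heckeAlgebra M 2 (↑S : Set ℕ) →+* O') : Prop :=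
  ∃ (O'' : Type) (_ : CommRing O'') (_ : IsDomain O'') (_ : IsDiscreteValuationRing O'')
    (_ : IsAdicComplete (IsLocalRing.maximalIdeal O'') O'')
    (_ : Finite (IsLocalRing.ResidueField O''))
    (_ : CharZero O'') (_ : Algebra O' O'') (_ : Module.Finite O' O'')
    (_ : IsLocalHom (algebraMap O' O'')),
    Function.Injective (algebraMap O' O'') ∧
    ∃ ρ : GaloisRepAdic O'',
      (∀ (ℓ : ℕ) (hℓ : ℓ.Prime) (hℓM : ¬ ℓ ∣ M) (hℓS : ℓ ∉ (↑S : Set ℕ)),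
        ∀ A : ValuationSubring (AlgebraicClosure ℚ), A.LiesOverPrime ℓ →
          ∀ σ : AlgebraicClosure ℚ ≃ₐ[ℚ] AlgebraicClosure ℚ, A.IsFrobeniusAt σ ℓ →
            LinearMap.charpoly (ρ.ρ σ) =
              X ^ 2 - C (algebraMap O' O'' (χ (CuspForm.heckeAlgebra.T hℓ hℓM hℓS))) * X
                + C ((ℓ : O''))) ∧
      (∀ q : ℕ, q.Prime → q ≠ lam → q ∣ M → ¬ q ^ 2 ∣ M →
        ∀ A : ValuationSubring (AlgebraicClosure ℚ), A.LiesOverPrime q →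
          ∀ σ : AlgebraicClosure ℚ ≃ₐ[ℚ] AlgebraicClosure ℚ, A.IsFrobeniusAt σ q →
            LinearMap.charpoly (ρ.ρ σ) = X ^ 2 - C ((q : O'') + 1) * X + C ((q : O'')) ∨
            LinearMap.charpoly (ρ.ρ σ) = X ^ 2 + C ((q : O'') + 1) * X + C ((q : O'')))

/-- **S35 from a pseudo-character** (with `O'' = O'`). -/
theorem s35_of_pseudoChar (lam M : ℕ) [NeZero M] (S : Finset ℕ)
    (O' : Type) [CommRing O'] [IsDomain O'] [IsDiscreteValuationRing O']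
    [IsAdicComplete (IsLocalRing.maximalIdeal O') O'] [Finite (IsLocalRing.ResidueField O')]
    [CharZero O']
    (χ : CuspForm.heckeAlgebra M 2 (↑S : Set ℕ) →+* O')
    (t : Gal → O') (ε : Gal →* O') (c : Gal)
    (h1 : t 1 = 2) (h2 : ∀ x y, t (x * y) = t (y * x))
    (h3 : ∀ x y, t (x * y) + ε y * t (x * y⁻¹) = t x * t y)
    (hc : c * c = 1) (hεc : ε c = -1)
    (h4 : ∀ (ℓ : ℕ) (hℓ : ℓ.Prime) (hℓM : ¬ ℓ ∣ M) (hℓS : ℓ ∉ (↑S : Set ℕ)),
      ∀ A : ValuationSubring (AlgebraicClosure ℚ), A.LiesOverPrime ℓ →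
        ∀ σ : Gal, A.IsFrobeniusAt σ ℓ →
          t σ = χ (CuspForm.heckeAlgebra.T hℓ hℓM hℓS) ∧ ε σ = (ℓ : O'))
    (h6 : ∀ k : ℕ, ∃ E : IntermediateField ℚ (AlgebraicClosure ℚ), FiniteDimensional ℚ E ∧
      ∀ σ : Gal, (∀ x ∈ E, σ x = x) →
        ∀ g : Gal, t (σ * g) - t g ∈ IsLocalRing.maximalIdeal O' ^ k)
    (h7 : ∀ q : ℕ, q.Prime → q ≠ lam → q ∣ M → ¬ q ^ 2 ∣ M →
      ∀ A : ValuationSubring (AlgebraicClosure ℚ), A.LiesOverPrime q →
        ∀ σ : Gal, A.IsFrobeniusAt σ q →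
          (t σ = (q : O') + 1 ∨ t σ = -((q : O') + 1)) ∧ ε σ = (q : O')) :
    S35Concl lam M S O' χ := by
  obtain ⟨Mρ, δ, hδ, htr, hdet, hcont⟩ :=
    Fermat.Agent.ES.Wiles.exists_integral_rep_of_pseudoChar ε t c h1 h2 h3 hc hεc
  obtain ⟨v, hv⟩ := Fermat.Agent.S30.exists_shift_of_ne_zero δ hδ
  have hM : MatCont O' Mρ := by
    intro n
    obtain ⟨E, hE, hEσ⟩ := h6 (n + v)
    exact ⟨E, hE, fun σ hσ i j => hv n _ (hcont σ _ (hEσ σ hσ) i j)⟩
  refine ⟨O', inferInstance, inferInstance, inferInstance, inferInstance, inferInstance,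
    inferInstance, Algebra.id O', inferInstance, ⟨fun _ h => h⟩, Function.injective_id,
    ofMatrix Mρ hM, ?_, ?_⟩
  · intro ℓ hℓ hℓN hℓS A hA σ hσ
    obtain ⟨e1, e2⟩ := h4 ℓ hℓ hℓN hℓS A hA σ hσ
    have hρ : (ofMatrix Mρ hM).ρ σ = Matrix.toLin' (Mρ σ) := rfl
    rw [hρ, Matrix.charpoly_toLin', Matrix.charpoly_fin_two, htr, hdet, e1, e2]
    rfl
  · intro q hq hqlam hqM hq2 A hA σ hσ
    obtain ⟨e1, e2⟩ := h7 q hq hqlam hqM hq2 A hA σ hσ
    have hρ : (ofMatrix Mρ hM).ρ σ = Matrix.toLin' (Mρ σ) := rfl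
    rw [hρ, Matrix.charpoly_toLin', Matrix.charpoly_fin_two, htr, hdet, e2]
    rcases e1 with e1 | e1
    · left; rw [e1]
    · right; rw [e1, map_neg, neg_mul, sub_neg_eq_add]

end Fermat.Agent.S35
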