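import Fermat.Statements.S35
import Fermat.Agent.S35.OfPseudoChar
import Fermat.Agent.S35.FinalPDiv

/-!
# STB-F: S35 (frozen type) from the inputs of plan STB (helper76)

`s35_of_stb` : the statement of S35, verbatim, from

* `hNF` : `STB.StmtNewFrobJ M₁ q p` for all `q ∤ M₁`, `p ≠ q`        ((P7-a), target of STB-MG/STB-J),
* `hNP : StmtNewPoly`  (a Hecke polynomial killing level `M₁` with `χ_g(P) ≠ 0`; STB-P1, helper46),
* `hNM : StmtNewMem`  (`P = 0` on `S₂(Γ₀(M₁))` ⇒ `P · PDiv (M₁ q) p` is `q`-new;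
  STB-P2 + STB-P3 = `STB.stb_p3_new`, helper59 + helper92).

and from the (landed) inputs of the Eichler–Shimura package, kept as hypotheses here to keep the
import closure of this file small: `hcheb : Cheb.WeakChebotarev` (`Cheb.weakChebotarev_holds`) and
`hES : StmtESIn` (`ES.torsionUnif_proved`, `ES.stmtFiniteLevel`, `ES.G2.stmtFrob_of_stmtINJAll`,
`ES.G2.stmtUnram_of_stmtINJAll` with `INJ.injAll_stmtINJAll`).  They are discharged in
`S35/FinalInputs.lean`.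

Everything else is landed: the trace function and the pseudo-character (`S30/PseudoChar.lean`),
Wiles' lemma (`s35_of_pseudoChar`).
-/

set_option autoImplicit false

open Polynomial

noncomputable section

namespace Fermat.Agent.S35

open ModularCurve Fermat.Agent.ES Fermat.Agent.S31 Fermat.Agent.S30 Fermat.Agent.STB

/-- **(P1)**, in the form consumed by S35: for a newform `g` of level `M` and a proper divisor
`M₁` of `M` there is a Hecke polynomial `P` in the variables outside `S` which kills the cusp forms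
of level `M₁` and with `χ_g(P) ≠ 0` (STB-P1, helper46: `stb_p1` + its corollary (b)). -/
def StmtNewPoly : Prop :=
  ∀ {M : ℕ} [NeZero M] {g : CuspForm (CongruenceSubgroup.Gamma0 M) 2}, g.IsNewform →
    ∀ (M₁ : ℕ) [NeZero M₁], M₁ ∣ M → M₁ ≠ M →
      ∀ (S : Finset ℕ), (∀ q : ℕ, q.Prime → q ∣ M → q ∈ S) →
        ∀ (O' : Type) [CommRing O'] [IsDomain O'] [CharZero O']
          (chig : CuspForm.heckeAlgebra M 2 (↑S : Set ℕ) →+* ℂ),
          (∀ (ℓ : ℕ) (hℓ : ℓ.Prime) (hℓM : ¬ ℓ ∣ M) (hℓS : ℓ ∉ (↑S : Set ℕ)),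
            chig (CuspForm.heckeAlgebra.T hℓ hℓM hℓS) = ModularFormClass.qCoeff g ℓ) →
          ∀ iota : chig.range →+* O',
            ∃ P ∈ MvPolynomial.supported ℤ (outsideVars (↑S : Set ℕ)),
              CuspForm.heckeEvalForms M₁ 2 P = 0 ∧
                iota (chig.rangeRestrict (evalS M (↑S : Set ℕ) P)) ≠ 0

/-- the inputs of the Eichler–Shimura package on `PDiv N p` (all landed: `ES.torsionUnif_proved`,
`ES.stmtFiniteLevel`, `ES.G2.stmtFrob_of_stmtINJAll`, `ES.G2.stmtUnram_of_stmtINJAll`). -/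
def StmtESIn : Prop :=
  ∀ (N p : ℕ) [NeZero N], p.Prime →
    TorsionUnif N p ∧ StmtFiniteLevel N p ∧ StmtFrob N p ∧ StmtUnram N p

/-- **(P7)** at level `M₁ * q` for the trace function `t` on `PDiv (M₁ * q) lam`. -/
theorem s35f_h7 (hcheb : Cheb.WeakChebotarev) (hES : StmtESIn)
    (hNF : ∀ (M₁ q p : ℕ) [NeZero M₁] [NeZero q], q.Prime → ¬ q ∣ M₁ → p.Prime → p ≠ q →
      StmtNewFrobJ M₁ q p)
    (hNP : StmtNewPoly) (hNM : StmtNewMem)
    {M₁ q lam : ℕ} [NeZero M₁] [NeZero q] [Fact lam.Prime] (hq : q.Prime) (hqM₁ : ¬ q ∣ M₁)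
    (hqlam : q ≠ lam)
    {g : CuspForm (CongruenceSubgroup.Gamma0 (M₁ * q)) 2} (hg : g.IsNewform)
    (S : Finset ℕ)
    (O' : Type) [CommRing O'] [IsDomain O'] [IsDiscreteValuationRing O']
    [IsAdicComplete (IsLocalRing.maximalIdeal O') O'] [CharZero O']
    (hlamO' : (lam : O') ∈ IsLocalRing.maximalIdeal O')
    (chig : CuspForm.heckeAlgebra (M₁ * q) 2 (↑S : Set ℕ) →+* ℂ)
    (hchig : ∀ (ℓ : ℕ) (hℓ : ℓ.Prime) (hℓM : ¬ ℓ ∣ M₁ * q) (hℓS : ℓ ∉ (↑S : Set ℕ)),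
      chig (CuspForm.heckeAlgebra.T hℓ hℓM hℓS) = ModularFormClass.qCoeff g ℓ)
    (iota : chig.range →+* O')
    (hlamS : lam ∈ S) (hMS : ∀ r : ℕ, r.Prime → r ∣ M₁ * q → r ∈ S)
    (t : GQ → O')
    (ht : letI := pDivModule (M₁ * q) lam
      ∀ (γ : GQ) (k n : ℕ) (h : HeckeAlg),
        Good lam (PDiv (M₁ * q) lam) S (iota.comp chig.rangeRestrict) k n →
        h ∈ MvPolynomial.supported ℤ (outsideVars (↑S : Set ℕ)) →
        (letI := pDivGalois (M₁ * q) lam; Approx lam (PDiv (M₁ * q) lam) n γ h) →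
          t γ - chiHom S (iota.comp chig.rangeRestrict) h ∈ IsLocalRing.maximalIdeal O' ^ k)
    (A : ValuationSubring (AlgebraicClosure ℚ)) (hA : A.LiesOverPrime q)
    (σ : GQ) (hσ : A.IsFrobeniusAt σ q) :
    t σ = (q : O') + 1 ∨ t σ = -((q : O') + 1) := by
  letI := pDivModule (M₁ * q) lam
  letI := pDivGalois (M₁ * q) lam
  have hp : lam.Prime := Fact.out
  have hp0 : lam ≠ 0 := hp.ne_zero
  obtain ⟨⟨μ, hμd⟩, hlev, hfrob, hunr⟩ := hES (M₁ * q) lam hp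
  have hm := multData_of_torsionUnifData hp0 hμd
  have hJ : ESDataInf (M₁ * q) lam (PDiv (M₁ * q) lam) := hm.esDataInf hlev hfrob hunr
  have hfaith : ESFaith (M₁ * q) lam (PDiv (M₁ * q) lam) := hm.esFaith hp0
  have hgoodN : ∀ r : ℕ, r.Prime → r ∉ S → ¬ r ∣ M₁ * q := fun r hr hrS h => hrS (hMS r hr h)
  have hgood : ∀ r : ℕ, r.Prime → r ∉ S → ¬ r ∣ M₁ * q * lam := by
    intro r hr hrS h
    rcases (Nat.Prime.dvd_mul hr).mp h with h | h
    · exact hrS (hMS r hr h)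
    · have : r = lam := (Nat.prime_dvd_prime_iff_eq hr hp).mp h
      exact hrS (this ▸ hlamS)
  have hM₁ne : M₁ ≠ M₁ * q := by
    intro h
    have h1 : M₁ * 1 = M₁ * q := by rw [mul_one]; exact h
    have h2 : 1 = q := Nat.eq_of_mul_eq_mul_left (Nat.pos_of_ne_zero (NeZero.ne M₁)) h1
    exact hq.one_lt.ne h2
  obtain ⟨P, hP, hP0, hχP⟩ := hNP hg M₁ (dvd_mul_right M₁ q) hM₁ne S hMS O' chig hchig iota
  refine s35f_trace_eq_or (J := PDiv (M₁ * q) lam) (IsLocalRing.maximalIdeal O') hlamO'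
    hcheb hJ hfaith hgoodN hgood t ht hq hqlam A hA σ hσ P hP hχP ?_
  intro x _
  exact s35f_hnew (hNF M₁ q lam hq hqM₁ hp hqlam.symm) hNM hq hqM₁ S hgood P hP hP0
    A hA σ hσ x

/-- **(P7)** at a level `M` with `q ∥ M`. -/
theorem s35f_h7_dvd (hcheb : Cheb.WeakChebotarev) (hES : StmtESIn)
    (hNF : ∀ (M₁ q p : ℕ) [NeZero M₁] [NeZero q], q.Prime → ¬ q ∣ M₁ → p.Prime → p ≠ q →
      StmtNewFrobJ M₁ q p)
    (hNP : StmtNewPoly) (hNM : StmtNewMem)
    {M q lam : ℕ} [NeZero M] [Fact lam.Prime] (hq : q.Prime) (hqM : q ∣ M) (hq2 : ¬ q ^ 2 ∣ M)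
    (hqlam : q ≠ lam)
    {g : CuspForm (CongruenceSubgroup.Gamma0 M) 2} (hg : g.IsNewform)
    (S : Finset ℕ)
    (O' : Type) [CommRing O'] [IsDomain O'] [IsDiscreteValuationRing O']
    [IsAdicComplete (IsLocalRing.maximalIdeal O') O'] [CharZero O']
    (hlamO' : (lam : O') ∈ IsLocalRing.maximalIdeal O')
    (chig : CuspForm.heckeAlgebra M 2 (↑S : Set ℕ) →+* ℂ)
    (hchig : ∀ (ℓ : ℕ) (hℓ : ℓ.Prime) (hℓM : ¬ ℓ ∣ M) (hℓS : ℓ ∉ (↑S : Set ℕ)),
      chig (CuspForm.heckeAlgebra.T hℓ hℓM hℓS) = ModularFormClass.qCoeff g ℓ)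
    (iota : chig.range →+* O')
    (hlamS : lam ∈ S) (hMS : ∀ r : ℕ, r.Prime → r ∣ M → r ∈ S)
    (t : GQ → O')
    (ht : letI := pDivModule M lam
      ∀ (γ : GQ) (k n : ℕ) (h : HeckeAlg),
        Good lam (PDiv M lam) S (iota.comp chig.rangeRestrict) k n →
        h ∈ MvPolynomial.supported ℤ (outsideVars (↑S : Set ℕ)) →
        (letI := pDivGalois M lam; Approx lam (PDiv M lam) n γ h) →
          t γ - chiHom S (iota.comp chig.rangeRestrict) h ∈ IsLocalRing.maximalIdeal O' ^ k)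
    (A : ValuationSubring (AlgebraicClosure ℚ)) (hA : A.LiesOverPrime q)
    (σ : GQ) (hσ : A.IsFrobeniusAt σ q) :
    t σ = (q : O') + 1 ∨ t σ = -((q : O') + 1) := by
  obtain ⟨M₁, hM⟩ := hqM
  have hM' : M = M₁ * q := by rw [hM, mul_comm]
  clear hM
  subst hM'
  haveI : NeZero M₁ := ⟨fun h => NeZero.ne (M₁ * q) (by rw [h, zero_mul])⟩
  haveI : NeZero q := ⟨hq.ne_zero⟩
  have hqM₁ : ¬ q ∣ M₁ := by
    rintro ⟨c, hc⟩
    apply hq2
    exact ⟨c, by rw [hc]; ring⟩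
  exact s35f_h7 hcheb hES hNF hNP hNM hq hqM₁ hqlam hg S O' hlamO' chig hchig iota hlamS hMS
    t ht A hA σ hσ

/-- **S35 verbatim**, from the inputs of plan STB. -/
theorem s35_of_stb (hcheb : Cheb.WeakChebotarev) (hES : StmtESIn)
    (hNF : ∀ (M₁ q p : ℕ) [NeZero M₁] [NeZero q], q.Prime → ¬ q ∣ M₁ → p.Prime → p ≠ q →
      StmtNewFrobJ M₁ q p)
    (hNP : StmtNewPoly) (hNM : StmtNewMem)
    {M : ℕ} [NeZero M] {g : CuspForm (CongruenceSubgroup.Gamma0 M) 2} (hg : g.IsNewform)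
    (lam : ℕ) [Fact lam.Prime]
    (S : Finset ℕ)
    (O' : Type) [CommRing O'] [IsDomain O'] [IsDiscreteValuationRing O']
    [IsAdicComplete (IsLocalRing.maximalIdeal O') O'] [Finite (IsLocalRing.ResidueField O')]
    [CharZero O'] (hlamO' : (lam : O') ∈ IsLocalRing.maximalIdeal O')
    (chig : CuspForm.heckeAlgebra M 2 (↑S : Set ℕ) →+* ℂ)
    (hchig : ∀ (ℓ : ℕ) (hℓ : ℓ.Prime) (hℓM : ¬ ℓ ∣ M) (hℓS : ℓ ∉ (↑S : Set ℕ)),
      chig (CuspForm.heckeAlgebra.T hℓ hℓM hℓS) = ModularFormClass.qCoeff g ℓ)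
    (iota : chig.range →+* O')
    (hlamS : lam ∈ S) (hMS : ∀ q : ℕ, q.Prime → q ∣ M → q ∈ S) :
    ∃ (O'' : Type) (_ : CommRing O'') (_ : IsDomain O'') (_ : IsDiscreteValuationRing O'')
      (_ : IsAdicComplete (IsLocalRing.maximalIdeal O'') O'')
      (_ : Finite (IsLocalRing.ResidueField O''))
      (_ : CharZero O'') (_ : Algebra O' O'') (_ : Module.Finite O' O'')
      (_ : IsLocalHom (algebraMap O' O'')),
      Function.Injective (algebraMap O' O'') ∧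
      ∃ ρ : GaloisRepAdic O'',
        (∀ (ℓ : ℕ) (hℓ : ℓ.Prime) (hℓM : ¬ ℓ ∣ M) (hℓS : ℓ ∉ (↑S : Set ℕ)),
          ∀ A : ValuationSubring (AlgebraicClosure ℚ), A.LiesOverPrime ℓ →
            ∀ σ : AlgebraicClosure ℚ ≃ₐ[ℚ] AlgebraicClosure ℚ, A.IsFrobeniusAt σ ℓ →
              LinearMap.charpoly (ρ.ρ σ) =
                X ^ 2 - C (algebraMap O' O'' ((iota.comp chig.rangeRestrict)
                  (CuspForm.heckeAlgebra.T hℓ hℓM hℓS))) * X
                  + C ((ℓ : O''))) ∧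
        (∀ q : ℕ, q.Prime → q ≠ lam → q ∣ M → ¬ q ^ 2 ∣ M →
          ∀ A : ValuationSubring (AlgebraicClosure ℚ), A.LiesOverPrime q →
            ∀ σ : AlgebraicClosure ℚ ≃ₐ[ℚ] AlgebraicClosure ℚ, A.IsFrobeniusAt σ q →
              LinearMap.charpoly (ρ.ρ σ) = X ^ 2 - C ((q : O'') + 1) * X + C ((q : O'')) ∨
              LinearMap.charpoly (ρ.ρ σ) = X ^ 2 + C ((q : O'') + 1) * X + C ((q : O''))) := by
  have hp : lam.Prime := Fact.out
  have hp0 : lam ≠ 0 := hp.ne_zero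
  obtain ⟨⟨μ, hμd⟩, hlev, hfrob, hunr⟩ := hES M lam hp
  have hm := multData_of_torsionUnifData hp0 hμd
  have hgoodN : ∀ r : ℕ, r.Prime → r ∉ S → ¬ r ∣ M := fun r hr hrS h => hrS (hMS r hr h)
  have hgood : ∀ r : ℕ, r.Prime → r ∉ S → ¬ r ∣ M * lam := by
    intro r hr hrS h
    rcases (Nat.Prime.dvd_mul hr).mp h with h | h
    · exact hrS (hMS r hr h)
    · have : r = lam := (Nat.prime_dvd_prime_iff_eq hr hp).mp h
      exact hrS (this ▸ hlamS)
  have hne : ∀ ℓ : ℕ, ℓ ∉ (↑S : Set ℕ) → ℓ ≠ lam := by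
    rintro ℓ hℓS rfl
    exact hℓS hlamS
  have key : ∃ t : GQ → O',
      IsPseudoChar2 (cycloCharO lam (IsLocalRing.maximalIdeal O') hlamO') t ∧
      (∀ (ℓ : ℕ) (hℓ : ℓ.Prime) (hℓN : ¬ ℓ ∣ M) (hℓS : ℓ ∉ (↑S : Set ℕ)),
        ∀ A : ValuationSubring (AlgebraicClosure ℚ), A.LiesOverPrime ℓ →
          ∀ τ : GQ, A.IsFrobeniusAt τ ℓ →
            t τ = (iota.comp chig.rangeRestrict) (CuspForm.heckeAlgebra.T hℓ hℓN hℓS)) ∧
      (∀ k : ℕ, ∃ E : IntermediateField ℚ (AlgebraicClosure ℚ), FiniteDimensional ℚ E ∧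
        ∀ σ : GQ, (∀ a ∈ E, σ a = a) → ∀ γ : GQ,
          t (σ * γ) - t γ ∈ IsLocalRing.maximalIdeal O' ^ k) ∧
      (∀ q : ℕ, q.Prime → q ≠ lam → q ∣ M → ¬ q ^ 2 ∣ M →
        ∀ A : ValuationSubring (AlgebraicClosure ℚ), A.LiesOverPrime q →
          ∀ σ : GQ, A.IsFrobeniusAt σ q → t σ = (q : O') + 1 ∨ t σ = -((q : O') + 1)) := by
    letI := pDivModule M lam
    letI := pDivGalois M lam
    have hJ : ESDataInf M lam (PDiv M lam) := hm.esDataInf hlev hfrob hunr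
    have hfaith : ESFaith M lam (PDiv M lam) := hm.esFaith hp0
    obtain ⟨t, ht⟩ := exists_traceFun (J := PDiv M lam) (χ := iota.comp chig.rangeRestrict)
      (IsLocalRing.maximalIdeal O') hlamO' hcheb hJ hfaith hgoodN hgood
    obtain ⟨hps, h4, -, h6⟩ := pseudoChar_of_spec (IsLocalRing.maximalIdeal O') hlamO'
      hcheb hJ hfaith hgoodN hgood t ht
    refine ⟨t, hps, h4, h6, ?_⟩
    intro q hq hqlam hqM hq2 A hA σ hσ
    exact s35f_h7_dvd hcheb hES hNF hNP hNM hq hqM hq2 hqlam hg S O' hlamO' chig hchig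
      iota hlamS hMS t ht A hA σ hσ
  obtain ⟨t, ⟨h1, h2, h3⟩, h4, h6, h7⟩ := key
  refine s35_of_pseudoChar lam M S O' (iota.comp chig.rangeRestrict) t
    ((Units.coeHom O').comp (cycloCharO lam (IsLocalRing.maximalIdeal O') hlamO'))
    complexConjugation h1 h2 h3 complexConjugation_mul_self
    (cycloCharO_conj lam (IsLocalRing.maximalIdeal O') hlamO') ?_ h6 ?_
  · intro ℓ hℓ hℓN hℓS A hA σ hσ
    exact ⟨h4 ℓ hℓ hℓN hℓS A hA σ hσ,
      cycloCharO_frob lam (IsLocalRing.maximalIdeal O') hlamO' ℓ hℓ (hne ℓ hℓS) A hA σ hσ⟩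
  · intro q hq hqlam hqM hq2 A hA σ hσ
    exact ⟨h7 q hq hqlam hqM hq2 A hA σ hσ,
      cycloCharO_frob lam (IsLocalRing.maximalIdeal O') hlamO' q hq hqlam A hA σ hσ⟩

end Fermat.Agent.S35
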