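import Fermat.Agent.S35.Final
import Fermat.Agent.STB.NewPoly
import Fermat.Agent.STB.PushPoly
import Fermat.Agent.STB.JForm
import Fermat.Agent.ES.FaithOfInputs
import Fermat.Agent.ES.TorsionUnifProved
import Fermat.Agent.INJ.InjAll
import Fermat.Agent.Cheb.Final

/-!
# STB-F: S35 (frozen type) from `StmtNewFrobJ` alone (helper76)

All the other inputs of `s35_of_stb` are landed and discharged here:

* `stmtESIn_proved` : the Eichler–Shimura inputs (`ES.torsionUnif_proved`, `ES.stmtFiniteLevel`,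
  `ES.G2.stmtFrob_of_stmtINJAll`, `ES.G2.stmtUnram_of_stmtINJAll`, `INJ.injAll_stmtINJAll`);
* `stmtNewPoly_proved` : (P1) = `STB.stb_p1_iota` (helper46);
* `stmtNewMem_proved` : (P2) + (P3) = `STB.stb_p3_new` (helper59, helper92).

`s35_of_newFrob` : S35 verbatim from `hNF : ∀ M₁ q p, q ∤ M₁ → p ≠ q → STB.StmtNewFrobJ M₁ q p`.
-/

set_option autoImplicit false

open Polynomial

noncomputable section

namespace Fermat.Agent.S35

open ModularCurve Fermat.Agent.ES Fermat.Agent.S31 Fermat.Agent.S30 Fermat.Agent.STB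

theorem stmtESIn_proved : StmtESIn := fun N p _ hp =>
  ⟨torsionUnif_proved N p hp.pos, stmtFiniteLevel N p hp.ne_zero,
    G2.stmtFrob_of_stmtINJAll Fermat.Agent.INJ.injAll_stmtINJAll N p,
    G2.stmtUnram_of_stmtINJAll Fermat.Agent.INJ.injAll_stmtINJAll N p⟩

theorem stmtNewPoly_proved : StmtNewPoly := by
  intro M _ g hg M₁ _ hM₁ hne S hMS O' _ _ _ chig hchig iota
  exact stb_p1_iota
    (fun N p _ hp => esPkgFaith_of_inputs Fermat.Agent.INJ.injAll_stmtINJAll hp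
      (torsionUnif_proved N p hp.pos))
    hg hM₁ hne S hMS chig hchig iota

theorem stmtNewMem_proved : StmtNewMem := fun _ _ _ _ _ hp hq hqM₁ t ht h0 x =>
  stb_p3_new hp hq hqM₁ t ht h0 x

/-- **S35 verbatim**, from `StmtNewFrobJ` ((P7-a), the target of STB-MG/STB-J) alone. -/
theorem s35_of_newFrob
    (hNF : ∀ (M₁ q p : ℕ) [NeZero M₁] [NeZero q], q.Prime → ¬ q ∣ M₁ → p.Prime → p ≠ q →
      StmtNewFrobJ M₁ q p)
    {M : ℕ} [NeZero M] {g : CuspForm (CongruenceSubgroup.Gamma0 M) 2} (hg : g.IsNewform)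
    (lam : ℕ) [Fact lam.Prime]
    (S : Finset ℕ)
    (O' : Type) [CommRing O'] [IsDomain O'] [IsDiscreteValuationRing O']
    [IsAdicComplete (IsLocalRing.maximalIdeal O') O'] [Finite (IsLocalRing.ResidueField O')]
    [CharZero O'] (hlamO' : (lam : O') ∈ IsLocalRing.maximalIdeal O')
    (chig : CuspForm.heckeAlgebra M 2 (↑S : Set ℕ) →+* ℂ)
    (hchig : ∀ (ℓ : ℕ) (hℓ : ℓ.Prime) (hℓM : ¬ ℓ ∣ M) (hℓS : ℓ ∉ (↑S : Set ℕ)),
      chig (CuspForm.heckeAlgebra.T hℓ hℓM hℓS) = ModularFormClass.qCoeff g ℓ)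
    (iota : chig.range →+* O')
    (hlamS : lam ∈ S) (hMS : ∀ q : ℕ, q.Prime → q ∣ M → q ∈ S) :
    ∃ (O'' : Type) (_ : CommRing O'') (_ : IsDomain O'') (_ : IsDiscreteValuationRing O'')
      (_ : IsAdicComplete (IsLocalRing.maximalIdeal O'') O'')
      (_ : Finite (IsLocalRing.ResidueField O''))
      (_ : CharZero O'') (_ : Algebra O' O'') (_ : Module.Finite O' O'')
      (_ : IsLocalHom (algebraMap O' O'')),
      Function.Injective (algebraMap O' O'') ∧
      ∃ ρ : GaloisRepAdic O'',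
        (∀ (ℓ : ℕ) (hℓ : ℓ.Prime) (hℓM : ¬ ℓ ∣ M) (hℓS : ℓ ∉ (↑S : Set ℕ)),
          ∀ A : ValuationSubring (AlgebraicClosure ℚ), A.LiesOverPrime ℓ →
            ∀ σ : AlgebraicClosure ℚ ≃ₐ[ℚ] AlgebraicClosure ℚ, A.IsFrobeniusAt σ ℓ →
              LinearMap.charpoly (ρ.ρ σ) =
                X ^ 2 - C (algebraMap O' O'' ((iota.comp chig.rangeRestrict)
                  (CuspForm.heckeAlgebra.T hℓ hℓM hℓS))) * X
                  + C ((ℓ : O''))) ∧
        (∀ q : ℕ, q.Prime → q ≠ lam → q ∣ M → ¬ q ^ 2 ∣ M →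
          ∀ A : ValuationSubring (AlgebraicClosure ℚ), A.LiesOverPrime q →
            ∀ σ : AlgebraicClosure ℚ ≃ₐ[ℚ] AlgebraicClosure ℚ, A.IsFrobeniusAt σ q →
              LinearMap.charpoly (ρ.ρ σ) = X ^ 2 - C ((q : O'') + 1) * X + C ((q : O'')) ∨
              LinearMap.charpoly (ρ.ρ σ) = X ^ 2 + C ((q : O'') + 1) * X + C ((q : O''))) :=
  s35_of_stb Fermat.Agent.Cheb.weakChebotarev_holds stmtESIn_proved hNF stmtNewPoly_proved
    stmtNewMem_proved hg lam S O' hlamO' chig hchig iota hlamS hMS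

/-- `StmtNewFrobJ` at all levels from the Kummer form `StmtNewFrobKummer` (STB-J, helper50). -/
theorem stmtNewFrobJ_all_of_kummer (hK : StmtNewFrobKummer)
    (M₁ q p : ℕ) [NeZero M₁] [NeZero q] (hq : q.Prime) (hqM₁ : ¬ q ∣ M₁) (hp : p.Prime)
    (hpq : p ≠ q) : StmtNewFrobJ M₁ q p :=
  stmtNewFrobJ_of_kummer M₁ q (hK M₁ q hq hqM₁) hq p hp hpq

end Fermat.Agent.S35
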